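import Mathlib
import Fermat.Agent.LT.T7.H62.RigidAut
import Fermat.Agent.LT.T1.Spec

/-!
# Row LT, tower T7, node T7.14 `RigidC`, leaf T7.14.3 `CountC` (row 1519): the UNIFORM BOUND
# and FINITENESS (helper849, assist; owner of the leaf: helper671)

OFF-MAIN.  Mathlib + byte-identical copies of `LT/T7/H62/RigidAut.lean` (helper62, vocabulary
`rowOf`, `rowNorm`, `cntSet`, `cnt`) and `LT/T1/Spec.lean` (`AdNormC`, a CLOSED leaf of T1).

For EVERY totally complex number field `K`, EVERY ideal `𝔪`, EVERY `g ∈ GL₂(𝔸_K)`: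

* `cntSet_finite849 : 0 < Y → (cntSet 𝔪 Y g).Finite`;
* `cnt_mul_le849    : 0 < Y → Y ≤ 1 → Y * cnt 𝔪 Y g ≤ 2 * 98 ^ r`, `r = #{w ∣ ∞}`;
* `cntBd849`        : the third conjunct of `Rigid.CountC K`, verbatim.

NO reduction theory, NO lattice count.  Proof (separation + packing):

1. For two distinct points `x ≠ x'` of `ℙ¹(K)` with rows `r = x g`, `r' = x' g`, the wedge
   `r₀ r'₁ - r₁ r'₀ = D · det g`, `D ∈ Kˣ`, is an idele of module `‖det g‖_𝔸` (product formula,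
   `AdNormC`).
2. Hadamard at every place: `|wedge|_v ≤ max|r|_v · max|r'|_v` (ultrametric), and at a complex
   place `|wedge|_w² ≤ (2 s)² ‖r_w‖² ‖r'_w‖²` if `[r_w]` and `[r'_w]` lie in the same chart square
   of side `s` of `ℙ¹(ℂ)` (`cell849`: chart `|α| ≤ |β|`, `z = α / β`, or chart `|β| < |α|`,
   `z = β / α`; `|α β' - β α'| = |β β'| |z - z'|`).
3. Hence two distinct points of height `≥ Y` in the same cell at every `w` satisfy
   `‖det g‖ ≤ (2 s)^{2 r} H H' ≤ (2 s)^{2 r} ‖det g‖ / Y`: impossible if `(2 s)^{2 r} < Y`.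
   The cell map is injective on `hSet849 Y g` and takes values in a box of `(2 (2 N + 1)²)^r`
   cells, `N = ⌈1 / s⌉`; with `(2 s)^{2 r} = Y / 2` this is `≤ 2 · 98^r / Y`.

As a by-product the local heights `max(|r₀|_v, |r₁|_v)` of a row `x g`, `x ≠ 0`, are `1` for
almost all `v` (`finite_mulSupport_finLoc849`), so `rowNorm` is never a junk value on rows.
-/

set_option autoImplicit false
set_option linter.unusedSectionVars false

open IsDedekindDomain NumberField Filter Topology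
open Fermat.Agent.LT.H556.A0 Fermat.Agent.LT.T7 Fermat.Agent.LT.T7.Rigid

noncomputable section

namespace Fermat.Agent.LT.T7.H849

/-! ## 1. Cells of `ℙ¹(ℂ)` -/


/-- The chart cell of the point `[α : β]` of `ℙ¹(ℂ)` for the mesh `s`. -/
noncomputable def cell849 (s : ℝ) (α β : ℂ) : Bool × ℤ × ℤ :=
  if ‖α‖ ≤ ‖β‖ then (true, ⌊(α / β).re / s⌋, ⌊(α / β).im / s⌋)
  else (false, ⌊(β / α).re / s⌋, ⌊(β / α).im / s⌋)

lemma abs_sub_lt_of_floor_eq849 {s x y : ℝ} (hs : 0 < s) (h : ⌊x / s⌋ = ⌊y / s⌋) :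
    |x - y| ≤ s := by
  have h1 := Int.floor_le (x / s)
  have h2 := Int.lt_floor_add_one (x / s)
  have h3 := Int.floor_le (y / s)
  have h4 := Int.lt_floor_add_one (y / s)
  rw [h] at h1 h2
  have h5 : |x / s - y / s| ≤ 1 := by
    rw [abs_le]; constructor <;> linarith
  have h6 : x / s - y / s = (x - y) / s := by ring
  rw [h6, abs_div, abs_of_pos hs, div_le_one hs] at h5
  exact h5

lemma norm_sub_le_of_cell849 {s : ℝ} (hs : 0 < s) {z z' : ℂ}
    (hre : ⌊z.re / s⌋ = ⌊z'.re / s⌋) (him : ⌊z.im / s⌋ = ⌊z'.im / s⌋) :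
    ‖z - z'‖ ≤ 2 * s := by
  have h1 := abs_sub_lt_of_floor_eq849 hs hre
  have h2 := abs_sub_lt_of_floor_eq849 hs him
  calc ‖z - z'‖ ≤ |(z - z').re| + |(z - z').im| := Complex.norm_le_abs_re_add_abs_im _
    _ = |z.re - z'.re| + |z.im - z'.im| := by simp
    _ ≤ 2 * s := by linarith

/-- Two points in the same cell have small wedge. -/
lemma wedge_le_of_cell849 {s : ℝ} (hs : 0 < s) {α β α' β' : ℂ}
    (h : cell849 s α β = cell849 s α' β') :
    ‖α * β' - β * α'‖ ^ 2 ≤ (2 * s) ^ 2 * ((‖α‖ ^ 2 + ‖β‖ ^ 2) * (‖α'‖ ^ 2 + ‖β'‖ ^ 2)) := by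
  have key : ∀ a b a' b' : ℂ, ‖a‖ ≤ ‖b‖ → ‖a'‖ ≤ ‖b'‖ →
      ⌊(a / b).re / s⌋ = ⌊(a' / b').re / s⌋ → ⌊(a / b).im / s⌋ = ⌊(a' / b').im / s⌋ →
      ‖a * b' - b * a'‖ ^ 2 ≤ (2 * s) ^ 2 * ((‖a‖ ^ 2 + ‖b‖ ^ 2) * (‖a'‖ ^ 2 + ‖b'‖ ^ 2)) := by
    intro a b a' b' hab hab' hre him
    have hnn : 0 ≤ (2 * s) ^ 2 * ((‖a‖ ^ 2 + ‖b‖ ^ 2) * (‖a'‖ ^ 2 + ‖b'‖ ^ 2)) := by positivity
    by_cases hb : b = 0
    · have ha : a = 0 := by
        rw [hb, norm_zero] at hab
        exact norm_le_zero_iff.1 hab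
      simp [ha, hb]
    by_cases hb' : b' = 0
    · have ha' : a' = 0 := by
        rw [hb', norm_zero] at hab'
        exact norm_le_zero_iff.1 hab'
      simp [ha', hb']
    have hz := norm_sub_le_of_cell849 hs hre him
    have e : a * b' - b * a' = b * b' * (a / b - a' / b') := by
      field_simp
    rw [e, norm_mul, norm_mul, mul_pow, mul_pow]
    have h1 : ‖a / b - a' / b'‖ ^ 2 ≤ (2 * s) ^ 2 :=
      pow_le_pow_left₀ (norm_nonneg _) hz 2
    have h2 : ‖b‖ ^ 2 ≤ ‖a‖ ^ 2 + ‖b‖ ^ 2 := by nlinarith [sq_nonneg ‖a‖]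
    have h3 : ‖b'‖ ^ 2 ≤ ‖a'‖ ^ 2 + ‖b'‖ ^ 2 := by nlinarith [sq_nonneg ‖a'‖]
    calc ‖b‖ ^ 2 * ‖b'‖ ^ 2 * ‖a / b - a' / b'‖ ^ 2
        ≤ (‖a‖ ^ 2 + ‖b‖ ^ 2) * (‖a'‖ ^ 2 + ‖b'‖ ^ 2) * (2 * s) ^ 2 := by
          gcongr
      _ = _ := by ring
  unfold cell849 at h
  by_cases c : ‖α‖ ≤ ‖β‖
  · by_cases c' : ‖α'‖ ≤ ‖β'‖
    · rw [if_pos c, if_pos c'] at h
      simp only [Prod.mk.injEq, true_and] at h
      exact key α β α' β' c c' h.1 h.2
    · rw [if_pos c, if_neg c'] at h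
      simp at h
  · by_cases c' : ‖α'‖ ≤ ‖β'‖
    · rw [if_neg c, if_pos c'] at h
      simp at h
    · rw [if_neg c, if_neg c'] at h
      simp only [Prod.mk.injEq, true_and] at h
      have := key β α β' α' (le_of_not_ge c) (le_of_not_ge c') h.1 h.2
      have e : α * β' - β * α' = -(β * α' - α * β') := by ring
      rw [e, norm_neg]
      calc ‖β * α' - α * β'‖ ^ 2 ≤ _ := this
        _ = _ := by ring

/-- The cell lies in a finite box. -/
lemma cell_mem849 {s : ℝ} (hs : 0 < s) (α β : ℂ) :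
    cell849 s α β ∈ (Finset.univ : Finset Bool) ×ˢ
      (Finset.Icc (-(⌈1 / s⌉₊ : ℤ)) ⌈1 / s⌉₊ ×ˢ Finset.Icc (-(⌈1 / s⌉₊ : ℤ)) ⌈1 / s⌉₊) := by
  have key : ∀ x : ℝ, |x| ≤ 1 → ⌊x / s⌋ ∈ Finset.Icc (-(⌈1 / s⌉₊ : ℤ)) ⌈1 / s⌉₊ := by
    intro x hx
    rw [abs_le] at hx
    have hN : 1 / s ≤ (⌈1 / s⌉₊ : ℝ) := Nat.le_ceil _
    rw [Finset.mem_Icc]
    constructor
    · rw [Int.le_floor]
      push_cast
      have : -(1 / s) ≤ x / s := by
        rw [neg_div' ]
        exact div_le_div_of_nonneg_right hx.1 hs.le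
      linarith
    · have h1 : x / s ≤ 1 / s := div_le_div_of_nonneg_right hx.2 hs.le
      have h2 : (⌊x / s⌋ : ℝ) ≤ x / s := Int.floor_le _
      have h3 : (⌊x / s⌋ : ℝ) ≤ ((⌈1 / s⌉₊ : ℤ) : ℝ) := by
        push_cast; linarith
      exact_mod_cast h3
  have hq : ∀ a b : ℂ, ‖a‖ ≤ ‖b‖ → ‖a / b‖ ≤ 1 := by
    intro a b hab
    rw [norm_div]
    by_cases hb : ‖b‖ = 0
    · simp [hb]
    · exact (div_le_one (lt_of_le_of_ne (norm_nonneg _) (Ne.symm hb))).2 hab
  unfold cell849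
  by_cases c : ‖α‖ ≤ ‖β‖
  · rw [if_pos c]
    have := hq α β c
    simp only [Finset.mem_product, Finset.mem_univ, true_and]
    exact ⟨key _ ((Complex.abs_re_le_norm _).trans this),
      key _ ((Complex.abs_im_le_norm _).trans this)⟩
  · rw [if_neg c]
    have := hq β α (le_of_not_ge c)
    simp only [Finset.mem_product, Finset.mem_univ, true_and]
    exact ⟨key _ ((Complex.abs_re_le_norm _).trans this),
      key _ ((Complex.abs_im_le_norm _).trans this)⟩


/-! ## 2. Adeles -/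

variable {K : Type} [Field K] [NumberField K]

lemma norm_le_one_iff849 (v : HeightOneSpectrum (𝓞 K)) (x : v.adicCompletion K) :
    ‖x‖ ≤ 1 ↔ x ∈ v.adicCompletionIntegers K := by
  rw [HeightOneSpectrum.mem_adicCompletionIntegers]
  exact Valued.toNormedField.norm_le_one_iff

lemma eventually_norm_le_one849 (a : Adl K) : ∀ᶠ v in cofinite, ‖a.2 v‖ ≤ 1 := by
  filter_upwards [a.2.2] with v hv
  exact (norm_le_one_iff849 v _).2 hv

lemma snd_mul_apply849 (a b : Adl K) (v : HeightOneSpectrum (𝓞 K)) :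
    (a * b).2 v = a.2 v * b.2 v := rfl

lemma snd_sub_apply849 (a b : Adl K) (v : HeightOneSpectrum (𝓞 K)) :
    (a - b).2 v = a.2 v - b.2 v := rfl

lemma snd_one_apply849 (v : HeightOneSpectrum (𝓞 K)) :
    (1 : Adl K).2 v = 1 := rfl

lemma fst_mul_apply849 (a b : Adl K) (w : InfinitePlace K) :
    (a * b).1 w = a.1 w * b.1 w := rfl

lemma fst_sub_apply849 (a b : Adl K) (w : InfinitePlace K) :
    (a - b).1 w = a.1 w - b.1 w := rfl

lemma eventually_norm_eq_one849 (u : (Adl K)ˣ) : ∀ᶠ v in cofinite, ‖(u : Adl K).2 v‖ = 1 := by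
  filter_upwards [eventually_norm_le_one849 (u : Adl K),
    eventually_norm_le_one849 ((u⁻¹ : (Adl K)ˣ) : Adl K)] with v h1 h2
  have h : (u : Adl K).2 v * ((u⁻¹ : (Adl K)ˣ) : Adl K).2 v = 1 := by
    rw [← snd_mul_apply849, u.mul_inv, snd_one_apply849]
  have h3 : ‖(u : Adl K).2 v‖ * ‖((u⁻¹ : (Adl K)ˣ) : Adl K).2 v‖ = 1 := by
    rw [← norm_mul, h, norm_one]
  have h4 := norm_nonneg ((u : Adl K).2 v)
  have h5 := norm_nonneg (((u⁻¹ : (Adl K)ˣ) : Adl K).2 v)
  nlinarith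

/-- The wedge (2 × 2 determinant) of two rows. -/
def wedge849 (r r' : Fin 2 → Adl K) : Adl K := r 0 * r' 1 - r 1 * r' 0

lemma wedge_rowOf849 (x x' : Fin 2 → K) (g : G K) :
    wedge849 (rowOf x g) (rowOf x' g)
      = algebraMap K (Adl K) (x 0 * x' 1 - x 1 * x' 0)
        * Matrix.det (g : Matrix (Fin 2) (Fin 2) (Adl K)) := by
  simp only [wedge849, rowOf, Matrix.det_fin_two, map_sub, map_mul]
  ring

/-- The local factor of the finite height. -/
def finLoc849 (r : Fin 2 → Adl K) (v : HeightOneSpectrum (𝓞 K)) : ℝ :=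
  max ‖(r 0).2 v‖ ‖(r 1).2 v‖

lemma finLoc_nonneg849 (r : Fin 2 → Adl K) (v : HeightOneSpectrum (𝓞 K)) : 0 ≤ finLoc849 r v :=
  le_max_of_le_left (norm_nonneg _)

lemma eventually_finLoc_le_one849 (r : Fin 2 → Adl K) : ∀ᶠ v in cofinite, finLoc849 r v ≤ 1 := by
  filter_upwards [eventually_norm_le_one849 (r 0), eventually_norm_le_one849 (r 1)] with v h0 h1
  exact max_le h0 h1

/-- Hadamard at a finite place. -/
lemma norm_wedge_fin_le849 (r r' : Fin 2 → Adl K) (v : HeightOneSpectrum (𝓞 K)) :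
    ‖(wedge849 r r').2 v‖ ≤ finLoc849 r v * finLoc849 r' v := by
  have e : (wedge849 r r').2 v = (r 0).2 v * (r' 1).2 v - (r 1).2 v * (r' 0).2 v := rfl
  rw [e]
  have hsub : ∀ x y : v.adicCompletion K, ‖x - y‖ ≤ max ‖x‖ ‖y‖ := fun x y => by
    have := IsUltrametricDist.norm_add_le_max x (-y)
    rwa [norm_neg, ← sub_eq_add_neg] at this
  refine (hsub _ _).trans (max_le ?_ ?_)
  · rw [norm_mul]
    exact mul_le_mul (le_max_left _ _) (le_max_right _ _) (norm_nonneg _) (finLoc_nonneg849 r v)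
  · rw [norm_mul]
    exact mul_le_mul (le_max_right _ _) (le_max_left _ _) (norm_nonneg _) (finLoc_nonneg849 r v)

/-- If the wedge of `r` and `r'` is an idele, the local heights of `r` are `1` almost everywhere. -/
lemma eventually_finLoc_eq_one849 {r r' : Fin 2 → Adl K} {u : (Adl K)ˣ}
    (hu : wedge849 r r' = (u : Adl K)) :
    ∀ᶠ v in cofinite, finLoc849 r v = 1 ∧ finLoc849 r' v = 1 := by
  filter_upwards [eventually_norm_eq_one849 u, eventually_finLoc_le_one849 r,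
    eventually_finLoc_le_one849 r'] with v h1 h2 h3
  have h4 := norm_wedge_fin_le849 r r' v
  rw [hu, h1] at h4
  have h5 := finLoc_nonneg849 r v
  have h6 := finLoc_nonneg849 r' v
  constructor
  · nlinarith
  · nlinarith

lemma finite_mulSupport_finLoc849 {r r' : Fin 2 → Adl K} {u : (Adl K)ˣ}
    (hu : wedge849 r r' = (u : Adl K)) :
    (Function.mulSupport (finLoc849 r)).Finite ∧ (Function.mulSupport (finLoc849 r')).Finite := by
  have h := eventually_finLoc_eq_one849 hu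
  rw [eventually_cofinite] at h
  constructor
  · refine h.subset fun v hv => ?_
    simp only [Function.mem_mulSupport] at hv
    simp only [Set.mem_ofPred_eq, not_and_or]
    exact Or.inl hv
  · refine h.subset fun v hv => ?_
    simp only [Function.mem_mulSupport] at hv
    simp only [Set.mem_ofPred_eq, not_and_or]
    exact Or.inr hv

lemma finite_mulSupport_unit849 (u : (Adl K)ˣ) :
    (Function.mulSupport fun v : HeightOneSpectrum (𝓞 K) => ‖(u : Adl K).2 v‖).Finite := by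
  have h := eventually_norm_eq_one849 u
  rw [eventually_cofinite] at h
  exact h

/-- Hadamard for the finite part. -/
lemma finprod_wedge_le849 {r r' : Fin 2 → Adl K} {u : (Adl K)ˣ}
    (hu : wedge849 r r' = (u : Adl K)) :
    (∏ᶠ v : HeightOneSpectrum (𝓞 K), ‖(u : Adl K).2 v‖)
      ≤ (∏ᶠ v, finLoc849 r v) * ∏ᶠ v, finLoc849 r' v := by
  obtain ⟨h1, h2⟩ := finite_mulSupport_finLoc849 hu
  have h3 := finite_mulSupport_unit849 u
  rw [← finprod_mul_distrib h1 h2]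
  have h4 : (Function.mulSupport fun v => finLoc849 r v * finLoc849 r' v).Finite :=
    (h1.union h2).subset (Function.mulSupport_mul _ _)
  rw [finprod_eq_prod_of_mulSupport_subset (s := (h3.union h4).toFinset) _ (by simp),
    finprod_eq_prod_of_mulSupport_subset (s := (h3.union h4).toFinset) _ (by simp)]
  refine Finset.prod_le_prod (fun v _ => norm_nonneg _) (fun v _ => ?_)
  rw [← hu]
  exact norm_wedge_fin_le849 r r' v


/-! ## 3. The infinite places -/

/-- The local factor of the infinite height (squared Euclidean norm of the row at `w`). -/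
def infLoc849 (r : Fin 2 → Adl K) (w : InfinitePlace K) : ℝ :=
  ‖(r 0).1 w‖ ^ 2 + ‖(r 1).1 w‖ ^ 2

lemma infLoc_nonneg849 (r : Fin 2 → Adl K) (w : InfinitePlace K) : 0 ≤ infLoc849 r w := by
  unfold infLoc849; positivity

/-- The cell of the row `r` at the infinite place `w`. -/
def rowCell849 (s : ℝ) (r : Fin 2 → Adl K) (w : InfinitePlace K) : Bool × ℤ × ℤ :=
  cell849 s (InfinitePlace.Completion.extensionEmbedding w ((r 0).1 w))
    (InfinitePlace.Completion.extensionEmbedding w ((r 1).1 w))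

lemma norm_ext849 (w : InfinitePlace K) (a : w.Completion) :
    ‖InfinitePlace.Completion.extensionEmbedding w a‖ = ‖a‖ :=
  (InfinitePlace.Completion.isometry_extensionEmbedding w).norm_map_of_map_zero (map_zero _) a

/-- Hadamard at an infinite place, for two rows in the same cell. -/
lemma norm_wedge_inf_le849 {s : ℝ} (hs : 0 < s) (r r' : Fin 2 → Adl K) (w : InfinitePlace K)
    (h : rowCell849 s r w = rowCell849 s r' w) :
    ‖(wedge849 r r').1 w‖ ^ 2 ≤ (2 * s) ^ 2 * (infLoc849 r w * infLoc849 r' w) := by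
  have e : (wedge849 r r').1 w = (r 0).1 w * (r' 1).1 w - (r 1).1 w * (r' 0).1 w := rfl
  have := wedge_le_of_cell849 hs h
  rw [← map_mul, ← map_mul, ← map_sub, norm_ext849, norm_ext849, norm_ext849, norm_ext849,
    norm_ext849] at this
  rw [e]
  exact this

/-! ## 4. The heights under `TotCplx` -/

lemma mult_eq_two849 (hK : TotCplx K) (w : InfinitePlace K) : w.mult = 2 := by
  have := hK w
  unfold InfinitePlace.mult
  rw [if_neg (InfinitePlace.not_isReal_iff_isComplex.2 this)]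

lemma rowNorm_eq849 (hK : TotCplx K) (r : Fin 2 → Adl K) :
    rowNorm r = (∏ w : InfinitePlace K, infLoc849 r w) * ∏ᶠ v, finLoc849 r v := by
  unfold rowNorm
  congr 1
  refine Finset.prod_congr rfl fun w _ => ?_
  rw [mult_eq_two849 hK w]
  norm_num
  rfl

lemma adNorm_eq849 (hK : TotCplx K) (x : Adl K) :
    Fermat.Agent.LT.T5.adNorm x
      = (∏ w : InfinitePlace K, ‖x.1 w‖ ^ 2) * ∏ᶠ v : HeightOneSpectrum (𝓞 K), ‖x.2 v‖ := by
  unfold Fermat.Agent.LT.T5.adNorm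
  congr 1
  refine Finset.prod_congr rfl fun w _ => ?_
  rw [mult_eq_two849 hK w]

lemma rowNorm_nonneg849 (hK : TotCplx K) (r : Fin 2 → Adl K) : 0 ≤ rowNorm r := by
  rw [rowNorm_eq849 hK]
  exact mul_nonneg (Finset.prod_nonneg fun w _ => infLoc_nonneg849 r w)
    (finprod_nonneg fun v => finLoc_nonneg849 r v)

/-- **Global Hadamard inequality** for two rows in the same cells with idelic wedge. -/
lemma adNorm_wedge_le849 (hK : TotCplx K) {s : ℝ} (hs : 0 < s) {r r' : Fin 2 → Adl K}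
    {u : (Adl K)ˣ} (hu : wedge849 r r' = (u : Adl K))
    (h : ∀ w, rowCell849 s r w = rowCell849 s r' w) :
    Fermat.Agent.LT.T5.adNorm (u : Adl K)
      ≤ ((2 * s) ^ 2) ^ Fintype.card (InfinitePlace K) * (rowNorm r * rowNorm r') := by
  rw [adNorm_eq849 hK, rowNorm_eq849 hK, rowNorm_eq849 hK]
  have h1 : (∏ w : InfinitePlace K, ‖(u : Adl K).1 w‖ ^ 2)
      ≤ ((2 * s) ^ 2) ^ Fintype.card (InfinitePlace K)
        * ((∏ w : InfinitePlace K, infLoc849 r w) * ∏ w : InfinitePlace K, infLoc849 r' w) := by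
    rw [← Finset.prod_mul_distrib, Fintype.card, ← Finset.prod_const, ← Finset.prod_mul_distrib]
    refine Finset.prod_le_prod (fun w _ => by positivity) (fun w _ => ?_)
    rw [← hu]
    exact norm_wedge_inf_le849 hs r r' w (h w)
  have h2 := finprod_wedge_le849 hu
  have h3 : 0 ≤ ∏ᶠ v : HeightOneSpectrum (𝓞 K), ‖(u : Adl K).2 v‖ :=
    finprod_nonneg fun v => norm_nonneg _
  have h4 : 0 ≤ ((2 * s) ^ 2) ^ Fintype.card (InfinitePlace K)
        * ((∏ w : InfinitePlace K, infLoc849 r w) * ∏ w : InfinitePlace K, infLoc849 r' w) :=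
    mul_nonneg (by positivity) (mul_nonneg (Finset.prod_nonneg fun w _ => infLoc_nonneg849 r w)
      (Finset.prod_nonneg fun w _ => infLoc_nonneg849 r' w))
  calc (∏ w : InfinitePlace K, ‖(u : Adl K).1 w‖ ^ 2) * ∏ᶠ v, ‖(u : Adl K).2 v‖
      ≤ (((2 * s) ^ 2) ^ Fintype.card (InfinitePlace K)
        * ((∏ w : InfinitePlace K, infLoc849 r w) * ∏ w : InfinitePlace K, infLoc849 r' w))
        * ((∏ᶠ v, finLoc849 r v) * ∏ᶠ v, finLoc849 r' v) :=
        mul_le_mul h1 h2 h3 h4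
    _ = _ := by ring


/-! ## 5. Distinct points have idelic wedge -/

lemma adNorm_T1_eq849 (x : Adl K) :
    Fermat.Agent.LT.T1.adNorm K x = Fermat.Agent.LT.T5.adNorm x := rfl

/-- The determinant of `g` as an idele. -/
def detU849 (g : G K) : (Adl K)ˣ := Matrix.GeneralLinearGroup.det g

lemma detU_coe849 (g : G K) :
    ((detU849 g : (Adl K)ˣ) : Adl K) = Matrix.det (g : Matrix (Fin 2) (Fin 2) (Adl K)) := rfl

lemma adNorm_det_pos849 (hN : Fermat.Agent.LT.T1.AdNormC K) (g : G K) :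
    0 < Fermat.Agent.LT.T5.adNorm (Matrix.det (g : Matrix (Fin 2) (Fin 2) (Adl K))) := by
  have := hN.1 (detU849 g)
  rwa [adNorm_T1_eq849, detU_coe849] at this

/-- Two non-proportional rational vectors: the wedge of their rows is an idele of the same module
as `det g`. -/
lemma exists_unit_wedge849 (hN : Fermat.Agent.LT.T1.AdNormC K) (g : G K) {p q : Fin 2 → K}
    (hD : p 0 * q 1 - p 1 * q 0 ≠ 0) :
    ∃ u : (Adl K)ˣ, wedge849 (rowOf p g) (rowOf q g) = (u : Adl K) ∧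
      Fermat.Agent.LT.T5.adNorm (u : Adl K)
        = Fermat.Agent.LT.T5.adNorm (Matrix.det (g : Matrix (Fin 2) (Fin 2) (Adl K))) := by
  refine ⟨Fermat.Agent.LT.T1.ratUnit K (Units.mk0 _ hD) * detU849 g, ?_, ?_⟩
  · rw [wedge_rowOf849]
    rfl
  · have h1 := hN.2.1 (Fermat.Agent.LT.T1.ratUnit K (Units.mk0 _ hD)) (detU849 g)
    have h2 := hN.2.2.1 (Units.mk0 _ hD)
    rw [h2, one_mul] at h1
    rw [← adNorm_T1_eq849, h1]
    rfl

lemma wedge_ne_zero_of_ne849 {x x' : Projectivization K (Fin 2 → K)} (h : x ≠ x') :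
    x.rep 0 * x'.rep 1 - x.rep 1 * x'.rep 0 ≠ 0 := by
  intro hD
  apply h
  have hp := x.rep_nonzero
  have hq := x'.rep_nonzero
  rw [← Projectivization.mk_rep x, ← Projectivization.mk_rep x', Projectivization.mk_eq_mk_iff]
  set p := x.rep with hp_def
  set q := x'.rep with hq_def
  have hD' : p 0 * q 1 = p 1 * q 0 := sub_eq_zero.1 hD
  by_cases hq0 : q 0 = 0
  · have hq1 : q 1 ≠ 0 := by
      intro hq1
      apply hq
      ext i
      fin_cases i
      · exact hq0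
      · exact hq1
    have hp0 : p 0 = 0 := by
      rw [hq0, mul_zero] at hD'
      rcases mul_eq_zero.1 hD' with h0 | h0
      · exact h0
      · exact absurd h0 hq1
    have hp1 : p 1 ≠ 0 := by
      intro hp1
      apply hp
      ext i
      fin_cases i
      · exact hp0
      · exact hp1
    refine ⟨Units.mk0 (p 1 / q 1) (div_ne_zero hp1 hq1), ?_⟩
    ext i
    fin_cases i
    · simp [hq0, hp0]
    · simp [hq1]
  · have hp0 : p 0 ≠ 0 := by
      intro hp0
      rw [hp0, zero_mul] at hD'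
      have hp1 : p 1 = 0 := by
        rcases mul_eq_zero.1 hD'.symm with h0 | h0
        · exact h0
        · exact absurd h0 hq0
      apply hp
      ext i
      fin_cases i
      · exact hp0
      · exact hp1
    refine ⟨Units.mk0 (p 0 / q 0) (div_ne_zero hp0 hq0), ?_⟩
    ext i
    fin_cases i
    · simp [hq0]
    · simp only [Units.smul_def, Units.val_mk0, Pi.smul_apply, smul_eq_mul]
      show p 0 / q 0 * q 1 = p 1
      field_simp
      linear_combination hD'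

/-! ## 6. Injectivity of the cell map and the count -/

/-- The points of height `≥ Y` (without congruence condition). -/
def hSet849 (Y : ℝ) (g : G K) : Set (Projectivization K (Fin 2 → K)) :=
  {x | rowNorm (rowOf x.rep g) ^ 2 * Y
        ≤ Fermat.Agent.LT.T5.adNorm (Matrix.det (g : Matrix (Fin 2) (Fin 2) (Adl K)))}

lemma cntSet_subset849 (𝔪 : Ideal (𝓞 K)) (Y : ℝ) (g : G K) : cntSet 𝔪 Y g ⊆ hSet849 Y g :=
  fun _ hx => hx.1

/-- The cell map. -/
def cellMap849 (s : ℝ) (g : G K) (x : Projectivization K (Fin 2 → K)) :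
    InfinitePlace K → Bool × ℤ × ℤ :=
  fun w => rowCell849 s (rowOf x.rep g) w

/-- **Separation**: two distinct points of height `≥ Y` lie in different cells as soon as
`(2 s)^(2 r) < Y`. -/
theorem injOn_cellMap849 (hN : Fermat.Agent.LT.T1.AdNormC K) (hK : TotCplx K) (g : G K)
    {Y s : ℝ} (hs : 0 < s) (hsY : ((2 * s) ^ 2) ^ Fintype.card (InfinitePlace K) < Y) :
    Set.InjOn (cellMap849 s g) (hSet849 Y g) := by
  intro x hx x' hx' hc
  by_contra hne
  obtain ⟨u, hu, hA⟩ := exists_unit_wedge849 hN g (wedge_ne_zero_of_ne849 hne)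
  have hle := adNorm_wedge_le849 hK hs hu (fun w => congrFun hc w)
  rw [hA] at hle
  have hpos := adNorm_det_pos849 hN g
  set A := Fermat.Agent.LT.T5.adNorm (Matrix.det (g : Matrix (Fin 2) (Fin 2) (Adl K)))
  set H := rowNorm (rowOf x.rep g)
  set H' := rowNorm (rowOf x'.rep g)
  set c := ((2 * s) ^ 2) ^ Fintype.card (InfinitePlace K)
  have hH : 0 ≤ H := rowNorm_nonneg849 hK _
  have hH' : 0 ≤ H' := rowNorm_nonneg849 hK _
  have hc0 : 0 ≤ c := by positivity
  have hY0 : 0 < Y := lt_of_le_of_lt hc0 hsY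
  have h1 : H ^ 2 * Y ≤ A := hx
  have h2 : H' ^ 2 * Y ≤ A := hx'
  have h3 : H * H' * Y ≤ A := by
    have h4 : (H * H' * Y) ^ 2 ≤ A ^ 2 := by
      calc (H * H' * Y) ^ 2 = (H ^ 2 * Y) * (H' ^ 2 * Y) := by ring
        _ ≤ A * A := mul_le_mul h1 h2 (by positivity) hpos.le
        _ = A ^ 2 := by ring
    exact (pow_le_pow_iff_left₀ (by positivity) hpos.le two_ne_zero).1 h4
  have h5 : A * Y ≤ c * A := by
    calc A * Y ≤ c * (H * H') * Y := by
          exact mul_le_mul_of_nonneg_right hle hY0.le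
      _ = c * (H * H' * Y) := by ring
      _ ≤ c * A := mul_le_mul_of_nonneg_left h3 hc0
  have h6 : Y ≤ c := by
    have : A * Y ≤ A * c := by rw [mul_comm A c]; exact h5
    exact le_of_mul_le_mul_left this hpos
  exact absurd hsY (not_lt.2 h6)

open scoped Classical in
/-- The box of cells. -/
def cellBox849 (K : Type) [Field K] [NumberField K] (s : ℝ) :
    Finset (InfinitePlace K → Bool × ℤ × ℤ) :=
  Fintype.piFinset fun _ => (Finset.univ : Finset Bool) ×ˢ
    (Finset.Icc (-(⌈1 / s⌉₊ : ℤ)) ⌈1 / s⌉₊ ×ˢ Finset.Icc (-(⌈1 / s⌉₊ : ℤ)) ⌈1 / s⌉₊)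

lemma cellMap_mem849 {s : ℝ} (hs : 0 < s) (g : G K) (x : Projectivization K (Fin 2 → K)) :
    cellMap849 s g x ∈ cellBox849 K s := by
  classical
  unfold cellBox849
  rw [Fintype.mem_piFinset]
  intro w
  exact cell_mem849 hs _ _

lemma card_cellBox849 (s : ℝ) :
    (cellBox849 K s).card = (2 * (2 * ⌈1 / s⌉₊ + 1) ^ 2) ^ Fintype.card (InfinitePlace K) := by
  classical
  unfold cellBox849
  rw [Fintype.card_piFinset, Finset.prod_const, Finset.card_univ]
  congr 1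
  rw [Finset.card_product, Finset.card_product, Finset.card_univ, Fintype.card_bool,
    Int.card_Icc]
  have : ((⌈1 / s⌉₊ : ℤ) + 1 - -(⌈1 / s⌉₊ : ℤ)).toNat = 2 * ⌈1 / s⌉₊ + 1 := by
    omega
  rw [this]
  ring

/-- **Finiteness and the count**, for every `g`. -/
theorem hSet_finite_card849 (hN : Fermat.Agent.LT.T1.AdNormC K) (hK : TotCplx K) (g : G K)
    {Y s : ℝ} (hs : 0 < s) (hsY : ((2 * s) ^ 2) ^ Fintype.card (InfinitePlace K) < Y) :
    (hSet849 Y g).Finite ∧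
      (hSet849 Y g).ncard ≤ (2 * (2 * ⌈1 / s⌉₊ + 1) ^ 2) ^ Fintype.card (InfinitePlace K) := by
  have hinj := injOn_cellMap849 hN hK g hs hsY
  have hsub : cellMap849 s g '' hSet849 Y g ⊆ (cellBox849 K s : Set _) := by
    rintro _ ⟨x, _, rfl⟩
    exact cellMap_mem849 hs g x
  have hfin : (cellMap849 s g '' hSet849 Y g).Finite :=
    (cellBox849 K s).finite_toSet.subset hsub
  refine ⟨hfin.of_finite_image hinj, ?_⟩
  rw [← hinj.ncard_image, ← card_cellBox849 (K := K) s,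
    ← Set.ncard_coe_finset (cellBox849 K s)]
  exact Set.ncard_le_ncard hsub (cellBox849 K s).finite_toSet


/-! ## 7. The mesh and the final bounds -/

/-- The mesh for the height `Y`: `(2 s)^(2 r) = Y / 2`. -/
def mesh849 (K : Type) [Field K] [NumberField K] (Y : ℝ) : ℝ :=
  Real.sqrt ((Y / 2) ^ ((Fintype.card (InfinitePlace K) : ℝ)⁻¹)) / 2

lemma mesh_pos849 {Y : ℝ} (hY : 0 < Y) : 0 < mesh849 K Y := by
  unfold mesh849
  have : 0 < (Y / 2) ^ ((Fintype.card (InfinitePlace K) : ℝ)⁻¹) :=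
    Real.rpow_pos_of_pos (by positivity) _
  positivity

lemma mesh_pow849 {Y : ℝ} (hY : 0 < Y) :
    ((2 * mesh849 K Y) ^ 2) ^ Fintype.card (InfinitePlace K) = Y / 2 := by
  unfold mesh849
  have h0 : 0 ≤ (Y / 2) ^ ((Fintype.card (InfinitePlace K) : ℝ)⁻¹) :=
    Real.rpow_nonneg (by positivity) _
  have h1 : 2 * (Real.sqrt ((Y / 2) ^ ((Fintype.card (InfinitePlace K) : ℝ)⁻¹)) / 2)
      = Real.sqrt ((Y / 2) ^ ((Fintype.card (InfinitePlace K) : ℝ)⁻¹)) := by ring
  rw [h1, Real.sq_sqrt h0]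
  exact Real.rpow_inv_natCast_pow (by positivity) Fintype.card_ne_zero

lemma mesh_lt849 {Y : ℝ} (hY : 0 < Y) :
    ((2 * mesh849 K Y) ^ 2) ^ Fintype.card (InfinitePlace K) < Y := by
  rw [mesh_pow849 hY]
  linarith

/-- **FINITENESS**: for every `g` and `Y > 0` there are finitely many points of height `≥ Y`. -/
theorem hSet_finite849 (hN : Fermat.Agent.LT.T1.AdNormC K) (hK : TotCplx K) (g : G K)
    {Y : ℝ} (hY : 0 < Y) : (hSet849 Y g).Finite :=
  (hSet_finite_card849 hN hK g (mesh_pos849 hY) (mesh_lt849 hY)).1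

/-- **FINITENESS** of `cntSet`. -/
theorem cntSet_finite849 (hN : Fermat.Agent.LT.T1.AdNormC K) (hK : TotCplx K)
    (𝔪 : Ideal (𝓞 K)) (g : G K) {Y : ℝ} (hY : 0 < Y) : (cntSet 𝔪 Y g).Finite :=
  (hSet_finite849 hN hK g hY).subset (cntSet_subset849 𝔪 Y g)

lemma cnt_le_ncard849 (hN : Fermat.Agent.LT.T1.AdNormC K) (hK : TotCplx K)
    (𝔪 : Ideal (𝓞 K)) (g : G K) {Y : ℝ} (hY : 0 < Y) :
    cnt 𝔪 Y g ≤ (hSet849 Y g).ncard := by
  unfold cnt
  rw [Nat.card_coe_set_eq]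
  exact Set.ncard_le_ncard (cntSet_subset849 𝔪 Y g) (hSet_finite849 hN hK g hY)

/-- The real estimate of the number of cells. -/
lemma cells_le849 {Y : ℝ} (hY : 0 < Y) (hY1 : Y ≤ 1) :
    (((2 * (2 * ⌈1 / mesh849 K Y⌉₊ + 1) ^ 2) ^ Fintype.card (InfinitePlace K) : ℕ) : ℝ)
      ≤ 2 * 98 ^ Fintype.card (InfinitePlace K) / Y := by
  set r := Fintype.card (InfinitePlace K) with hr
  set q := (Y / 2) ^ ((r : ℝ)⁻¹) with hq
  have hq0 : 0 < q := Real.rpow_pos_of_pos (by positivity) _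
  have hq1 : q ≤ 1 := Real.rpow_le_one (by positivity) (by linarith) (by positivity)
  have hqr : q ^ r = Y / 2 := Real.rpow_inv_natCast_pow (by positivity) Fintype.card_ne_zero
  have hsq0 : 0 < Real.sqrt q := Real.sqrt_pos.2 hq0
  have hsq1 : Real.sqrt q ≤ 1 := Real.sqrt_le_one.2 hq1
  have hmesh : mesh849 K Y = Real.sqrt q / 2 := rfl
  have h1 : 1 / mesh849 K Y = 2 / Real.sqrt q := by
    rw [hmesh]; field_simp
  have hN1 : (⌈1 / mesh849 K Y⌉₊ : ℝ) < 2 / Real.sqrt q + 1 := by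
    rw [h1]
    exact Nat.ceil_lt_add_one (by positivity)
  have hinv : 1 ≤ 1 / Real.sqrt q := by
    rw [le_div_iff₀ hsq0]; linarith
  have h2 : (2 * (⌈1 / mesh849 K Y⌉₊ : ℝ) + 1) ≤ 7 / Real.sqrt q := by
    have e1 : 2 / Real.sqrt q = 2 * (1 / Real.sqrt q) := by ring
    have e2 : 7 / Real.sqrt q = 7 * (1 / Real.sqrt q) := by ring
    rw [e2]
    rw [e1] at hN1
    linarith
  have h3 : (2 * (⌈1 / mesh849 K Y⌉₊ : ℝ) + 1) ^ 2 ≤ 49 / q := by
    have := pow_le_pow_left₀ (by positivity) h2 2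
    have e : (7 / Real.sqrt q) ^ 2 = 49 / q := by
      rw [div_pow, Real.sq_sqrt hq0.le]; norm_num
    rwa [e] at this
  have h4 : 2 * (2 * (⌈1 / mesh849 K Y⌉₊ : ℝ) + 1) ^ 2 ≤ 98 / q := by
    have e : (98 : ℝ) / q = 2 * (49 / q) := by ring
    rw [e]; linarith
  push_cast
  calc (2 * (2 * (⌈1 / mesh849 K Y⌉₊ : ℝ) + 1) ^ 2) ^ r ≤ (98 / q) ^ r :=
        pow_le_pow_left₀ (by positivity) h4 r
    _ = 98 ^ r / (Y / 2) := by rw [div_pow, hqr]
    _ = 2 * 98 ^ r / Y := by field_simp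

/-- **UNIFORM BOUND** (second conjunct of `CountC K`): `Y · cnt 𝔪 Y g ≤ 2 · 98^r` for every `g`
and `0 < Y ≤ 1`, `r` the number of (complex) places of `K`. -/
theorem cnt_mul_le849 (hN : Fermat.Agent.LT.T1.AdNormC K) (hK : TotCplx K)
    (𝔪 : Ideal (𝓞 K)) (g : G K) {Y : ℝ} (hY : 0 < Y) (hY1 : Y ≤ 1) :
    Y * (cnt 𝔪 Y g : ℝ) ≤ 2 * 98 ^ Fintype.card (InfinitePlace K) := by
  have h1 := cnt_le_ncard849 hN hK 𝔪 g hY
  have h2 := (hSet_finite_card849 hN hK g (mesh_pos849 hY) (mesh_lt849 hY)).2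
  have h3 : (cnt 𝔪 Y g : ℝ)
      ≤ (((2 * (2 * ⌈1 / mesh849 K Y⌉₊ + 1) ^ 2) ^ Fintype.card (InfinitePlace K) : ℕ) : ℝ) := by
    exact_mod_cast h1.trans h2
  have h4 := h3.trans (cells_le849 hY hY1)
  calc Y * (cnt 𝔪 Y g : ℝ) ≤ Y * (2 * 98 ^ Fintype.card (InfinitePlace K) / Y) :=
        mul_le_mul_of_nonneg_left h4 hY.le
    _ = 2 * 98 ^ Fintype.card (InfinitePlace K) := by field_simp

/-- The uniform bound in the shape of `CountC`. -/
theorem cntBd849 (hN : Fermat.Agent.LT.T1.AdNormC K) (hK : TotCplx K) (𝔪 : Ideal (𝓞 K)) :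
    ∃ C : ℝ, ∀ (g : G K) (Y : ℝ), 0 < Y → Y ≤ 1 → Y * (cnt 𝔪 Y g : ℝ) ≤ C :=
  ⟨2 * 98 ^ Fintype.card (InfinitePlace K), fun g _ hY hY1 => cnt_mul_le849 hN hK 𝔪 g hY hY1⟩

end Fermat.Agent.LT.T7.H849
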